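import Mathlib

/-!
Elementary tools for two-descents on curves over the rationals.
-/

namespace Fermat.Agent.Descent

lemma pow_four_of_coprime {a b c : ℤ} (hab : IsCoprime a b) (h : a * b = c ^ 4) :
    ∃ r, a = r ^ 4 ∨ a = -(r ^ 4) := by
  obtain ⟨d, hd⟩ := exists_associated_pow_of_mul_eq_pow'
    hab h
  rcases Int.associated_iff.mp hd with h | h
  · exact ⟨d, Or.inl h.symm⟩
  · exact ⟨d, Or.inr (by linarith)⟩

lemma sq_of_coprime_pos {a b c : ℤ} (hab : IsCoprime a b) (ha : 0 ≤ a) (h : a * b = c ^ 2) :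
    ∃ r, a = r ^ 2 := by
  obtain ⟨r, hr | hr⟩ := Int.sq_of_gcd_eq_one (Int.isCoprime_iff_gcd_eq_one.mp hab) h
  · exact ⟨r, hr⟩
  · refine ⟨r, ?_⟩
    have := sq_nonneg r
    omega

lemma rat_isInt_of_sq {x : ℚ} {n : ℤ} (h : x ^ 2 = n) : ∃ m : ℤ, x = m := by
  have h1 : (x ^ 2).den = 1 := by rw [h]; simp
  rw [Rat.den_pow] at h1
  have : x.den = 1 := by simpa using h1
  exact ⟨x.num, (Rat.den_eq_one_iff x).mp this |>.symm⟩

/-- A point on a monic integral cubic has square denominator. -/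
lemma cubic_point_num_den {a₂ a₄ a₆ : ℤ} {h y : ℚ}
    (e : y ^ 2 = h ^ 3 + a₂ * h ^ 2 + a₄ * h + a₆) :
    ∃ p w Y : ℤ, 0 < w ∧ IsCoprime p w ∧ h = p / w ^ 2 ∧ y = Y / w ^ 3 ∧
      Y ^ 2 = p ^ 3 + a₂ * p ^ 2 * w ^ 2 + a₄ * p * w ^ 4 + a₆ * w ^ 6 := by
  set p := h.num with hp
  set q : ℤ := (h.den : ℤ) with hq
  have hq0 : 0 < q := by simp [hq, h.den_pos]
  have hh : h = (p : ℚ) / q := by simp [hp, hq, h.num_div_den]
  have hcop : IsCoprime p q := by
    simpa [hp, hq, Int.isCoprime_iff_gcd_eq_one, Int.gcd] using h.reduced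
  set N := p ^ 3 + a₂ * p ^ 2 * q + a₄ * p * q ^ 2 + a₆ * q ^ 3 with hN
  have hy : y ^ 2 = (N : ℚ) / ((q ^ 3 : ℤ) : ℚ) := by
    rw [e, hh, hN]
    have : (q : ℚ) ≠ 0 := by exact_mod_cast hq0.ne'
    push_cast
    field_simp
  have hc2 : IsCoprime N (q ^ 3) := by
    have h1 : IsCoprime N q := by
      have : N = p ^ 3 + q * (a₂ * p ^ 2 + a₄ * p * q + a₆ * q ^ 2) := by rw [hN]; ring
      rw [this]
      exact hcop.pow_left.add_mul_left_left _
    exact h1.pow_right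
  have hden : (y ^ 2).den = (q ^ 3).natAbs ∧ (y ^ 2).num = N := by
    rw [hy]
    have h3 : (0:ℤ) < q ^ 3 := by positivity
    refine ⟨?_, Rat.num_div_eq_of_coprime h3 (Int.isCoprime_iff_gcd_eq_one.mp hc2)⟩
    have := Rat.den_div_eq_of_coprime h3 (Int.isCoprime_iff_gcd_eq_one.mp hc2)
    omega
  rw [Rat.den_pow, Rat.num_pow] at hden
  obtain ⟨h1, h2⟩ := hden
  have h1' : (y.den : ℤ) ^ 2 = q ^ 3 := by
    have := congrArg (fun n : ℕ => (n : ℤ)) h1
    push_cast at this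
    rwa [abs_of_pos (by positivity)] at this
  have hdvd : q ∣ (y.den : ℤ) := by
    rw [← Int.pow_dvd_pow_iff (two_ne_zero)]
    exact ⟨q, by rw [h1']; ring⟩
  obtain ⟨w, hw⟩ := hdvd
  have hqw : q = w ^ 2 := by
    have : q ^ 2 * q = q ^ 2 * w ^ 2 := by rw [hw] at h1'; linarith [h1']
    exact mul_left_cancel₀ (pow_ne_zero 2 hq0.ne') this
  have hwpos : 0 < w := by
    have : (0:ℤ) < y.den := by exact_mod_cast y.den_pos
    rw [hw] at this
    exact (mul_pos_iff_of_pos_left hq0).mp this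
  refine ⟨p, w, y.num, hwpos, ?_, ?_, ?_, ?_⟩
  · rw [hqw] at hcop
    exact (IsCoprime.pow_right_iff (by norm_num)).mp hcop
  · rw [hh, hqw]; push_cast; ring
  · conv_lhs => rw [← y.num_div_den]
    have : ((y.den : ℤ) : ℚ) = ((w ^ 3 : ℤ) : ℚ) := by rw [hw, hqw]; push_cast; ring
    push_cast at this
    rw [this]
  · rw [h2, hN, hqw]; ring

end Fermat.Agent.Descent
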