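import Fermat.Agent.Descent.Basic

/-!
Rational points on `y^2 = h((h+A)^2 + 4)` for `A^2 + 4` an odd power of a prime:
this covers 52a (`A = 3`) and 20a (`A = 11`).
-/

namespace Fermat.Agent.Descent

/-- Hypotheses on the parameters of the descent. -/
structure GoodParam (A D : ℤ) (p : ℕ) (k : ℕ) : Prop where
  hp : p.Prime
  hpodd : p ≠ 2
  hk : Odd k
  hD : D = A ^ 2 + 4
  hDp : D = (p : ℤ) ^ k
  hA0 : 0 < A
  hA8 : A % 8 = 3
  hnr : ∀ a c : ℤ, (p : ℤ) ∣ a ^ 2 - 2 * A * c ^ 2 → (p : ℤ) ∣ a ∧ (p : ℤ) ∣ c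

lemma odd_coprime_two {x : ℤ} (h : x % 2 = 1) : IsCoprime x 2 :=
  ⟨1, -(x / 2), by omega⟩

lemma descent_split {A D : ℤ} {p k : ℕ} (G : GoodParam A D p k)
    {a c P Q : ℤ} (hc : c ≠ 0) (hPQ : IsCoprime P Q) (hP : (p : ℤ) ^ k ∣ P)
    (hmul : P * Q = D * c ^ 4) (hB : P + Q = a ^ 2 - 2 * A * c ^ 2) :
    ∃ r s : ℤ, s ≠ 0 ∧ r ≠ 0 ∧ IsCoprime s r ∧ r.natAbs ≤ c.natAbs ∧
      a ^ 2 = s ^ 4 + 2 * A * s ^ 2 * r ^ 2 + D * r ^ 4 := by
  obtain ⟨P', rfl⟩ := hP
  have hD0 : D ≠ 0 := by rw [G.hDp]; exact pow_ne_zero _ (by exact_mod_cast G.hp.ne_zero)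
  rw [← G.hDp] at hPQ hB hmul
  have hm : P' * Q = c ^ 4 := by
    apply mul_left_cancel₀ hD0
    linarith [hmul]
  have hco : IsCoprime P' Q := hPQ.of_mul_left_right
  obtain ⟨r, hr⟩ := pow_four_of_coprime hco hm
  obtain ⟨s, hs⟩ := pow_four_of_coprime hco.symm (by rw [mul_comm]; exact hm)
  have hr0 : r ≠ 0 := by
    rintro rfl; rcases hr with h | h <;> simp [h] at hm <;> exact hc (by simpa using hm.symm)
  have hs0 : s ≠ 0 := by
    rintro rfl; rcases hs with h | h <;> simp [h] at hm <;> exact hc (by simpa using hm.symm)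
  have hrs : 0 < r ^ 4 * s ^ 4 := by positivity
  have hc4 : 0 < c ^ 4 := by positivity
  have hrsc : r ^ 4 * s ^ 4 = c ^ 4 := by
    rcases hr with rfl | rfl <;> rcases hs with rfl | rfl <;> nlinarith
  have hc2 : c ^ 2 = r ^ 2 * s ^ 2 := by
    nlinarith [mul_self_nonneg (c ^ 2 - r ^ 2 * s ^ 2), sq_nonneg c, sq_nonneg (r * s),
      mul_pos (show (0:ℤ) < r ^ 2 by positivity) (show (0:ℤ) < s ^ 2 by positivity)]
  refine ⟨r, s, hs0, hr0, ?_, ?_, ?_⟩
  · have h4 : IsCoprime (r ^ 4) (s ^ 4) := by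
      rcases hr with rfl | rfl <;> rcases hs with rfl | rfl <;>
        simpa [IsCoprime.neg_left_iff, IsCoprime.neg_right_iff] using hco
    exact ((IsCoprime.pow_iff (by norm_num) (by norm_num)).mp h4).symm
  · have h1 : c.natAbs = (r * s).natAbs :=
      Int.natAbs_eq_iff_sq_eq.mpr (by rw [hc2]; ring)
    rw [h1, Int.natAbs_mul]
    exact Nat.le_mul_of_pos_right _ (Int.natAbs_pos.mpr hs0)
  · rw [G.hD] at *
    rcases hr with rfl | rfl <;> rcases hs with rfl | rfl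
    · rw [hc2] at hB; linarith
    · nlinarith
    · nlinarith
    · exfalso
      rw [hc2] at hB
      nlinarith [sq_nonneg (s ^ 2 - A * r ^ 2), sq_nonneg a, show (0:ℤ) < r ^ 4 by positivity]

lemma quartic_none {A D : ℤ} {p k : ℕ} (G : GoodParam A D p k) :
    ∀ (n : ℕ) (u w v : ℤ), w.natAbs = n → u ≠ 0 → w ≠ 0 → IsCoprime u w →
      v ^ 2 = u ^ 4 + 2 * A * u ^ 2 * w ^ 2 + D * w ^ 4 → False := by
  intro n
  induction n using Nat.strong_induction_on with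
  | _ n ih =>
  intro u w v hn hu hw huw hv
  set X := u ^ 2 + A * w ^ 2 with hX
  have hA := G.hA0
  have hXpos : 0 < X := by positivity
  have hvv : X ^ 2 + (2 * w ^ 2) ^ 2 = v ^ 2 := by rw [hv, hX, G.hD]; ring
  obtain ⟨V, hV, hVpos⟩ : ∃ V, V ^ 2 = v ^ 2 ∧ 0 < V := by
    refine ⟨|v|, sq_abs v, abs_pos.mpr ?_⟩
    rintro rfl; nlinarith [sq_nonneg (2 * w ^ 2)]
  have huw2 : IsCoprime (u ^ 2) (w ^ 2) := huw.pow
  have hA8 := G.hA8
  have sq8 : ∀ x : ℤ, (x % 2 = 0 ∧ x ^ 2 % 4 = 0) ∨ (x % 2 = 1 ∧ x ^ 2 % 8 = 1) := by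
    intro x
    rcases Int.even_or_odd x with ⟨t, rfl⟩ | ⟨t, rfl⟩
    · left
      exact ⟨by omega, by ring_nf; omega⟩
    · right
      obtain ⟨s, hs⟩ := Int.even_mul_succ_self t
      refine ⟨by omega, ?_⟩
      have : (2 * t + 1) ^ 2 = 8 * s + 1 := by nlinarith
      omega
  rcases sq8 u with ⟨hu2, hu4⟩ | ⟨hu2, hu8⟩ <;> rcases sq8 w with ⟨hw2, hw4⟩ | ⟨hw2, hw8⟩
  · have h1 : (2:ℤ) ∣ u := by omega
    have h2 : (2:ℤ) ∣ w := by omega
    have := huw.isUnit_of_dvd' h1 h2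
    norm_num [Int.isUnit_iff] at this
  · -- u even, w odd
    have hXodd : X % 2 = 1 := by
      rw [hX, Int.add_emod, Int.mul_emod, show w ^ 2 % 2 = 1 by omega, show A % 2 = 1 by omega,
        show u ^ 2 % 2 = 0 by omega]; rfl
    have hco : Int.gcd X (2 * w ^ 2) = 1 := by
      rw [← Int.isCoprime_iff_gcd_eq_one]
      refine IsCoprime.mul_right ?_ ?_
      · exact (odd_coprime_two hXodd)
      · exact huw2.add_mul_right_left A
    obtain ⟨m, n', -, h2, -, -, hpar, -⟩ :=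
      PythagoreanTriple.coprime_classification' (x := X) (y := 2 * w ^ 2) (z := V)
        (by unfold PythagoreanTriple; nlinarith) hco hXodd hVpos
    have : w ^ 2 = m * n' := by linarith
    have : w ^ 2 % 2 = 0 := by
      rw [this, Int.mul_emod]; rcases hpar with ⟨h, h'⟩ | ⟨h, h'⟩ <;> simp [h, h']
    omega
  · -- u odd, w even
    have hXodd : X % 4 = 1 := by
      rw [hX, Int.add_emod, Int.mul_emod, show w ^ 2 % 4 = 0 by omega,
        show u ^ 2 % 4 = 1 by omega]; simp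
    have hco : Int.gcd X (2 * w ^ 2) = 1 := by
      rw [← Int.isCoprime_iff_gcd_eq_one]
      refine IsCoprime.mul_right ?_ ?_
      · exact (odd_coprime_two (by omega))
      · exact huw2.add_mul_right_left A
    obtain ⟨m, n', h1, h2, -, hmn, hpar, hm0⟩ :=
      PythagoreanTriple.coprime_classification' (x := X) (y := 2 * w ^ 2) (z := V)
        (by unfold PythagoreanTriple; nlinarith) hco (by omega) hVpos
    have hwmn : m * n' = w ^ 2 := by linarith
    have hw20 : 0 < w ^ 2 := by positivity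
    have hm : 0 < m := lt_of_le_of_ne hm0 (by rintro rfl; simp at hwmn; omega)
    have hn' : 0 < n' := by nlinarith
    have hcmn : IsCoprime m n' := Int.isCoprime_iff_gcd_eq_one.mpr hmn
    obtain ⟨a, rfl⟩ := sq_of_coprime_pos hcmn hm.le hwmn
    obtain ⟨b, rfl⟩ := sq_of_coprime_pos hcmn.symm hn'.le (by rw [mul_comm]; exact hwmn)
    rcases hpar with ⟨ha, hb⟩ | ⟨ha, hb⟩
    · exfalso
      rcases sq8 a with ⟨-, h⟩ | ⟨h', h⟩
      · rcases sq8 b with ⟨-, h'⟩ | ⟨-, h'⟩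
        · omega
        · have e1 : ((a ^ 2) ^ 2) % 4 = 0 := by
            rw [pow_two (a ^ 2), Int.mul_emod, h]; rfl
          have e2 : ((b ^ 2) ^ 2) % 4 = 1 := by
            rw [pow_two (b ^ 2), Int.mul_emod, show b ^ 2 % 4 = 1 by omega]; rfl
          omega
      · omega
    have hb2 : (2:ℤ) ∣ b := Int.prime_two.dvd_of_dvd_pow (n := 2) (by omega)
    obtain ⟨c, rfl⟩ := hb2
    have hc : c ≠ 0 := by rintro rfl; simp at hn'
    have hab : IsCoprime a c :=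
      ((IsCoprime.pow_iff (by norm_num) (by norm_num)).mp hcmn).of_mul_right_right
    set B := a ^ 2 - 2 * A * c ^ 2 with hB
    have hU : u ^ 2 = B ^ 2 - 4 * D * c ^ 4 := by
      have : u ^ 2 + A * (a ^ 2 * (2 * c) ^ 2) = (a ^ 2) ^ 2 - ((2 * c) ^ 2) ^ 2 := by
        rw [hwmn, ← h1]
      rw [hB, G.hD]; linarith
    have hB2 : B % 2 = 1 := by
      rw [hB, show 2 * A * c ^ 2 = 2 * (A * c ^ 2) by ring]; omega
    obtain ⟨P, hP⟩ : (2:ℤ) ∣ B - u := by omega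
    set Q := P + u with hQ
    have hPQ : P * Q = D * c ^ 4 := by
      have : B = 2 * P + u := by linarith
      rw [this] at hU
      rw [hQ]; linarith [hU]
    have hcop : IsCoprime P Q := by
      rw [Int.isCoprime_iff_gcd_eq_one]
      by_contra h
      obtain ⟨q, hq, hqd⟩ := Nat.exists_prime_and_dvd h
      have hqP : (q:ℤ) ∣ P := (Int.natCast_dvd_natCast.mpr hqd).trans (Int.gcd_dvd_left _ _)
      have hqQ : (q:ℤ) ∣ Q := (Int.natCast_dvd_natCast.mpr hqd).trans (Int.gcd_dvd_right _ _)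
      have hqB : (q:ℤ) ∣ B := by
        have : B = P + Q := by rw [hQ]; linarith
        rw [this]; exact dvd_add hqP hqQ
      have hqi := Nat.prime_iff_prime_int.mp hq
      have : (q:ℤ) ∣ a ∧ (q:ℤ) ∣ c := by
        rcases hqi.dvd_or_dvd (hPQ ▸ hqP.mul_right Q) with h | h
        · rw [G.hDp] at h
          have := (Nat.prime_dvd_prime_iff_eq hq G.hp).mp
            (Int.natCast_dvd_natCast.mp (hqi.dvd_of_dvd_pow h))
          subst this
          exact G.hnr a c hqB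
        · have hqc := hqi.dvd_of_dvd_pow h
          refine ⟨hqi.dvd_of_dvd_pow (n := 2) ?_, hqc⟩
          have : a ^ 2 = B + 2 * A * c ^ 2 := by rw [hB]; ring
          rw [this]
          exact dvd_add hqB ((hqc.pow two_ne_zero).mul_left _)
      exact hqi.not_isUnit (hab.isUnit_of_dvd' this.1 this.2)
    have hpi := Nat.prime_iff_prime_int.mp G.hp
    have hsum : P + Q = a ^ 2 - 2 * A * c ^ 2 := by rw [← hB, hQ]; linarith
    have hdiv : (p:ℤ) ^ k ∣ P * Q := by rw [hPQ, G.hDp]; exact dvd_mul_right _ _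
    obtain ⟨r, s, hs0, hr0, hsr, hle, he⟩ :
        ∃ r s : ℤ, s ≠ 0 ∧ r ≠ 0 ∧ IsCoprime s r ∧ r.natAbs ≤ c.natAbs ∧
          a ^ 2 = s ^ 4 + 2 * A * s ^ 2 * r ^ 2 + D * r ^ 4 := by
      by_cases hpP : (p:ℤ) ∣ P
      · have hnQ : ¬ (p:ℤ) ∣ Q := fun h => hpi.not_isUnit (hcop.isUnit_of_dvd' hpP h)
        exact descent_split G hc hcop (hpi.pow_dvd_of_dvd_mul_right _ hnQ hdiv) hPQ hsum
      · exact descent_split G hc hcop.symm (hpi.pow_dvd_of_dvd_mul_left _ hpP hdiv)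
          (by rw [mul_comm]; exact hPQ) (by rw [add_comm]; exact hsum)
    refine ih r.natAbs ?_ s r a rfl hs0 hr0 hsr he
    have hsqeq : w.natAbs = (a * (2 * c)).natAbs :=
      Int.natAbs_eq_iff_sq_eq.mpr (by rw [← hwmn]; ring)
    have ha0 : 0 < a.natAbs := Int.natAbs_pos.mpr (by rintro rfl; simp at hm)
    have hc0 : 0 < c.natAbs := Int.natAbs_pos.mpr hc
    rw [← hn, hsqeq, Int.natAbs_mul, Int.natAbs_mul]
    have h2 : (2:ℤ).natAbs = 2 := rfl
    rw [h2]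
    calc r.natAbs ≤ c.natAbs := hle
      _ < 1 * (2 * c.natAbs) := by omega
      _ ≤ a.natAbs * (2 * c.natAbs) := Nat.mul_le_mul_right _ ha0
  · -- both odd
    obtain ⟨t, ht⟩ : (4:ℤ) ∣ X ∧ X % 8 = 4 := by
      have : X % 8 = 4 := by
        rw [hX, Int.add_emod, Int.mul_emod, hw8, hu8, hA8]; rfl
      exact ⟨by omega, this⟩
    obtain ⟨T, hT⟩ : (2:ℤ) ∣ X := by omega
    obtain ⟨V2, hV2⟩ : (2:ℤ) ∣ V := by
      apply Int.prime_two.dvd_of_dvd_pow (n := 2)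
      rw [hV, ← hvv, hT]
      exact ⟨2 * T ^ 2 + 2 * (w ^ 2) ^ 2, by ring⟩
    have hco : Int.gcd (w ^ 2) T = 1 := by
      rw [← Int.isCoprime_iff_gcd_eq_one]
      have h1 : IsCoprime (w ^ 2) X := (huw2.add_mul_right_left A).symm
      rw [hT] at h1
      exact h1.of_mul_right_right
    obtain ⟨m, n', -, h2, -, -, hpar, -⟩ :=
      PythagoreanTriple.coprime_classification' (x := w ^ 2) (y := T) (z := V2)
        (by unfold PythagoreanTriple; subst hV2; rw [hT] at hvv; nlinarith) hco (by omega) (by omega)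
    have : (m * n') % 2 = 0 := by
      rw [Int.mul_emod]; rcases hpar with ⟨h, h'⟩ | ⟨h, h'⟩ <;> simp [h, h']
    rw [show 2 * m * n' = 2 * (m * n') by ring] at h2
    omega

lemma rat_quartic_none {A D : ℤ} {p k : ℕ} (G : GoodParam A D p k) (s v : ℚ)
    (e : v ^ 2 = s ^ 4 + 2 * A * s ^ 2 + D) : False := by
  rcases eq_or_ne s 0 with rfl | hs
  · obtain ⟨m, rfl⟩ := rat_isInt_of_sq (x := v) (n := D) (by simpa using e)
    have e' : m ^ 2 = (p:ℤ) ^ k := by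
      rw [← G.hDp]
      have : ((m:ℚ)) ^ 2 = (D:ℚ) := by simpa using e
      exact_mod_cast this
    have h1 := congrArg Int.natAbs e'
    simp only [Int.natAbs_pow, Int.natAbs_natCast] at h1
    obtain ⟨i, -, hi⟩ := (Nat.dvd_prime_pow G.hp).mp (h1 ▸ dvd_pow_self m.natAbs two_ne_zero)
    rw [hi, ← pow_mul] at h1
    have := Nat.pow_right_injective G.hp.two_le h1
    obtain ⟨j, hj⟩ := G.hk
    omega
  · set u := s.num with hu
    set w : ℤ := (s.den : ℤ) with hw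
    have hw0 : w ≠ 0 := by simp [hw, s.den_nz]
    have hwq : (w:ℚ) ≠ 0 := by exact_mod_cast hw0
    have hsu : s = (u:ℚ) / w := by simp [hu, hw, s.num_div_den]
    obtain ⟨m, hm⟩ := rat_isInt_of_sq (x := v * w ^ 2)
      (n := u ^ 4 + 2 * A * u ^ 2 * w ^ 2 + D * w ^ 4) (by
        rw [mul_pow, e, hsu]; push_cast; field_simp)
    refine quartic_none G _ u w m rfl (by simp [hu, hs]) hw0 ?_ ?_
    · simpa [hu, hw, Int.isCoprime_iff_gcd_eq_one, Int.gcd] using s.reduced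
    · have : ((m ^ 2 : ℤ) : ℚ) = ((u ^ 4 + 2 * A * u ^ 2 * w ^ 2 + D * w ^ 4 : ℤ) : ℚ) := by
        push_cast
        rw [← hm, mul_pow, e, hsu]; field_simp
      exact_mod_cast this

lemma cubic_zero {A D : ℤ} {p k : ℕ} (G : GoodParam A D p k) (h y : ℚ)
    (e : y ^ 2 = h ^ 3 + 2 * A * h ^ 2 + D * h) : h = 0 := by
  by_contra h0
  -- no square abscissa
  have key : ∀ s Y : ℚ, s ≠ 0 → Y ^ 2 = s ^ 2 * (s ^ 4 + 2 * A * s ^ 2 + D) → False := by
    intro s Y hs hY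
    exact rat_quartic_none G s (Y / s) (by rw [div_pow, hY]; field_simp)
  obtain ⟨P, w, Y, hw, hPw, hh, -, hY⟩ :=
    cubic_point_num_den (a₂ := 2 * A) (a₄ := D) (a₆ := 0) (h := h) (y := y)
      (by rw [e]; push_cast; ring)
  set Q := P ^ 2 + 2 * A * P * w ^ 2 + D * w ^ 4 with hQ
  have hYQ : Y ^ 2 = P * Q := by rw [hY, hQ]; ring
  have hP0 : P ≠ 0 := by rintro rfl; exact h0 (by simpa using hh)
  have hQpos : 0 < Q := by
    rw [hQ, G.hD]
    nlinarith [sq_nonneg (P + A * w ^ 2), show 0 < w ^ 4 by positivity]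
  have hPpos : 0 < P := by
    rcases lt_or_gt_of_ne hP0 with h | h
    · nlinarith [sq_nonneg Y]
    · exact h
  -- gcd of the factors divides D
  set g := Int.gcd P Q with hg
  have hgD : (g : ℤ) ∣ D := by
    have h1 : (g:ℤ) ∣ P := Int.gcd_dvd_left _ _
    have h2 : (g:ℤ) ∣ D * w ^ 4 := by
      have : D * w ^ 4 = Q - P * (P + 2 * A * w ^ 2) := by rw [hQ]; ring
      rw [this]; exact dvd_sub (Int.gcd_dvd_right _ _) (h1.mul_right _)
    exact ((hPw.of_isCoprime_of_dvd_left h1).pow_right).dvd_of_dvd_mul_right h2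
  obtain ⟨i, -, hi⟩ : ∃ i ≤ k, g = p ^ i := by
    rw [G.hDp] at hgD
    exact (Nat.dvd_prime_pow G.hp).mp (by exact_mod_cast hgD)
  obtain ⟨P1, Q1, hcop, hP1, hQ1⟩ :=
    Int.exists_gcd_one (m := P) (n := Q) (by rw [← hg, hi]; exact pow_pos G.hp.pos _)
  rw [← hg] at hP1 hQ1
  have hgpos : 0 < (g:ℤ) := by rw [hi]; exact_mod_cast pow_pos G.hp.pos _
  obtain ⟨Y1, hY1⟩ : (g:ℤ) ∣ Y := by
    rw [← Int.pow_dvd_pow_iff two_ne_zero, hYQ, hP1, hQ1]
    exact ⟨P1 * Q1, by ring⟩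
  have hmul : P1 * Q1 = Y1 ^ 2 := by
    apply mul_left_cancel₀ (pow_ne_zero 2 hgpos.ne')
    calc (g:ℤ) ^ 2 * (P1 * Q1) = P * Q := by rw [hP1, hQ1]; ring
      _ = _ := by rw [← hYQ, hY1]; ring
  obtain ⟨u, rfl⟩ := sq_of_coprime_pos (Int.isCoprime_iff_gcd_eq_one.mpr hcop)
    (nonneg_of_mul_nonneg_left (hP1 ▸ hPpos.le) hgpos) hmul
  have hu : u ≠ 0 := by rintro rfl; simp at hP1; exact hP0 hP1
  have huQ : (u:ℚ) ≠ 0 := by exact_mod_cast hu
  have hwQ : (w:ℚ) ≠ 0 := by exact_mod_cast hw.ne'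
  have hpQ : (p:ℚ) ≠ 0 := by exact_mod_cast G.hp.ne_zero
  have hhu : h = (p:ℚ) ^ i * (u / w) ^ 2 := by
    rw [hh, hP1, hi]; push_cast; ring
  rcases Nat.even_or_odd' i with ⟨j, rfl | rfl⟩
  · refine key ((p:ℚ) ^ j * u / w) y (by positivity) ?_
    rw [e, hhu]; ring
  · -- use the translate by the two-torsion point
    obtain ⟨l, hl⟩ := G.hk
    have hD : (D:ℚ) = (p:ℚ) ^ (2 * l + 1) := by rw [G.hDp, hl]; push_cast; ring
    have hs : (D:ℚ) / h = ((p:ℚ) ^ l / (p:ℚ) ^ j * w / u) ^ 2 := by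
      rw [hhu, hD]; field_simp; ring
    refine key ((p:ℚ) ^ l / (p:ℚ) ^ j * w / u) (D * y / h ^ 2) (by positivity) ?_
    have : ((p:ℚ) ^ l / (p:ℚ) ^ j * w / u) ^ 4 = ((D:ℚ) / h) ^ 2 := by rw [hs]; ring
    rw [this, ← hs, div_pow, mul_pow, e]
    field_simp
    ring

lemma goodParam52 : GoodParam 3 13 13 1 := by
  refine ⟨by norm_num, by norm_num, by decide, by norm_num, by norm_num, by norm_num, by norm_num, ?_⟩
  intro a c h
  have h' := (ZMod.intCast_zmod_eq_zero_iff_dvd _ 13).mpr h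
  have : ∀ x y : ZMod 13, x ^ 2 - 2 * 3 * y ^ 2 = 0 → x = 0 ∧ y = 0 := by decide
  push_cast at h'
  obtain ⟨h1, h2⟩ := this _ _ h'
  exact ⟨(ZMod.intCast_zmod_eq_zero_iff_dvd a 13).mp h1,
    (ZMod.intCast_zmod_eq_zero_iff_dvd c 13).mp h2⟩

lemma goodParam20 : GoodParam 11 125 5 3 := by
  refine ⟨by norm_num, by norm_num, by decide, by norm_num, by norm_num, by norm_num, by norm_num, ?_⟩
  intro a c h
  have h' := (ZMod.intCast_zmod_eq_zero_iff_dvd _ 5).mpr h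
  have : ∀ x y : ZMod 5, x ^ 2 - 2 * 11 * y ^ 2 = 0 → x = 0 ∧ y = 0 := by decide
  push_cast at h'
  obtain ⟨h1, h2⟩ := this _ _ h'
  exact ⟨(ZMod.intCast_zmod_eq_zero_iff_dvd a 5).mp h1,
    (ZMod.intCast_zmod_eq_zero_iff_dvd c 5).mp h2⟩

/-- The curve 52a has no rational point with `h ≠ 0`. -/
theorem x52 (h y : ℚ) (e : y ^ 2 = h ^ 3 + 6 * h ^ 2 + 13 * h) : h = 0 :=
  cubic_zero goodParam52 h y (by push_cast; linarith)

/-- The curve 20a has no rational point with `h ≠ 0`. -/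
theorem x20 (h y : ℚ) (e : y ^ 2 = h ^ 3 + 22 * h ^ 2 + 125 * h) : h = 0 :=
  cubic_zero goodParam20 h y (by push_cast; linarith)

end Fermat.Agent.Descent
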