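import Fermat.Agent.Descent.Basic

/-!
Rational points on the curve `V^2 = X (X - 16) (X + 9)`, a model of `X_0(15)`.
-/

namespace Fermat.Agent.Descent.X015

lemma sq_mod8 (x : ℤ) :
    (x % 2 = 0 ∧ x ^ 2 % 4 = 0) ∨ (x % 2 = 1 ∧ x ^ 2 % 8 = 1) := by
  rcases Int.even_or_odd x with ⟨t, rfl⟩ | ⟨t, rfl⟩
  · left
    exact ⟨by omega, by ring_nf; omega⟩
  · right
    obtain ⟨s, hs⟩ := Int.even_mul_succ_self t
    refine ⟨by omega, ?_⟩
    have : (2 * t + 1) ^ 2 = 8 * s + 1 := by nlinarith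
    omega

lemma sq_mod3 (x : ℤ) :
    (x % 3 = 0 ∧ x ^ 2 % 3 = 0) ∨ (x % 3 ≠ 0 ∧ x ^ 2 % 3 = 1) := by
  have h := Int.emod_lt_of_pos x (show (0:ℤ) < 3 by norm_num)
  have h' := Int.emod_nonneg x (show (3:ℤ) ≠ 0 by norm_num)
  rw [pow_two, Int.mul_emod]
  rcases (by omega : x % 3 = 0 ∨ x % 3 = 1 ∨ x % 3 = 2) with h | h | h <;> simp [h]

/-- Four-number lemma. -/
lemma four_numbers {K L M N : ℤ} (h : K * L = M * N) (hK : K ≠ 0) :
    ∃ a b c d : ℤ, K = a * b ∧ L = c * d ∧ M = a * c ∧ N = b * d ∧ IsCoprime b c := by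
  obtain ⟨b, c, hbc, hb, hc⟩ := Int.exists_gcd_one (m := K) (n := M)
    (Int.gcd_pos_of_ne_zero_left _ hK)
  set a : ℤ := (Int.gcd K M : ℤ) with ha
  have hcop : IsCoprime b c := Int.isCoprime_iff_gcd_eq_one.mpr hbc
  have ha0 : a ≠ 0 := fun h => hK (by rw [hb, h, mul_zero])
  have hb0 : b ≠ 0 := fun h => hK (by rw [hb, h, zero_mul])
  have hLN : b * L = c * N := by
    apply mul_left_cancel₀ ha0
    calc a * (b * L) = K * L := by rw [hb]; ring
      _ = M * N := h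
      _ = a * (c * N) := by rw [hc]; ring
  obtain ⟨d, hd⟩ : b ∣ N := hcop.dvd_of_dvd_mul_left ⟨L, hLN.symm⟩
  refine ⟨a, b, c, d, by rw [hb]; ring, ?_, by rw [hc]; ring, hd, hcop⟩
  exact mul_left_cancel₀ hb0 (by rw [hLN, hd]; ring)

lemma core : ∀ (n : ℕ) (u w s t : ℤ), w.natAbs = n → w ≠ 0 → u % 2 = 1 →
    u ^ 2 - 16 * w ^ 2 = s ^ 2 → u ^ 2 + 9 * w ^ 2 = t ^ 2 → False := by
  intro n
  induction n using Nat.strong_induction_on with
  | _ n ih =>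
  intro u w s t hn hw hu hs ht
  by_cases hcop : IsCoprime u w
  swap
  · obtain ⟨q, hq, hqu, hqw⟩ : ∃ q : ℕ, q.Prime ∧ (q:ℤ) ∣ u ∧ (q:ℤ) ∣ w := by
      rw [Int.isCoprime_iff_gcd_eq_one] at hcop
      obtain ⟨q, hq, hd⟩ := Nat.exists_prime_and_dvd hcop
      exact ⟨q, hq, (Int.natCast_dvd_natCast.mpr hd).trans (Int.gcd_dvd_left _ _),
        (Int.natCast_dvd_natCast.mpr hd).trans (Int.gcd_dvd_right _ _)⟩
    have hqi := Nat.prime_iff_prime_int.mp hq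
    obtain ⟨u', rfl⟩ := hqu
    obtain ⟨w', rfl⟩ := hqw
    obtain ⟨s', rfl⟩ : (q:ℤ) ∣ s :=
      hqi.dvd_of_dvd_pow (n := 2) (hs ▸ ⟨q * u' ^ 2 - 16 * q * w' ^ 2, by ring⟩)
    obtain ⟨t', rfl⟩ : (q:ℤ) ∣ t :=
      hqi.dvd_of_dvd_pow (n := 2) (ht ▸ ⟨q * u' ^ 2 + 9 * q * w' ^ 2, by ring⟩)
    have hq2 : ((q:ℤ) ^ 2) ≠ 0 := pow_ne_zero _ hqi.ne_zero
    refine ih w'.natAbs ?_ u' w' s' t' rfl (right_ne_zero_of_mul hw) ?_ ?_ ?_
    · rw [← hn, Int.natAbs_mul, Int.natAbs_natCast]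
      have := Int.natAbs_pos.mpr (right_ne_zero_of_mul hw)
      nlinarith [hq.two_le]
    · rcases sq_mod8 u' with ⟨h, -⟩ | ⟨h, -⟩
      · rw [Int.mul_emod, h] at hu; simp at hu
      · exact h
    · exact mul_left_cancel₀ hq2 (by linarith)
    · exact mul_left_cancel₀ hq2 (by linarith)
  have hu8 : u ^ 2 % 8 = 1 := by rcases sq_mod8 u with ⟨h, -⟩ | ⟨-, h⟩ <;> omega
  -- parity and divisibility by three
  have hw2 : w % 2 = 0 := by
    rcases sq_mod8 w with ⟨h, -⟩ | ⟨-, h⟩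
    · exact h
    · rcases sq_mod8 t with ⟨-, h'⟩ | ⟨-, h'⟩ <;> omega
  have hu3 : u % 3 ≠ 0 := by
    intro h3
    rcases sq_mod3 u with ⟨-, hu'⟩ | ⟨hu', -⟩
    · rcases sq_mod3 w with ⟨hw3, -⟩ | ⟨-, hw3⟩
      · have := hcop.isUnit_of_dvd' (show (3:ℤ) ∣ u by omega) (show (3:ℤ) ∣ w by omega)
        norm_num [Int.isUnit_iff] at this
      · rcases sq_mod3 s with ⟨-, h'⟩ | ⟨-, h'⟩ <;> omega
    · exact hu' h3
  have h2u : IsCoprime u 2 := ⟨1, -(u / 2), by omega⟩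
  have h3u : IsCoprime u 3 := by
    rcases (by omega : u % 3 = 1 ∨ u % 3 = 2) with h | h
    · exact ⟨1, -(u / 3), by omega⟩
    · exact ⟨-1, u / 3 + 1, by omega⟩
  have hupos : (0:ℤ) < |u| := abs_pos.mpr (by rintro rfl; simp at hu)
  have ht0 : (0:ℤ) < |t| := abs_pos.mpr (by rintro rfl; nlinarith [sq_nonneg u, mul_self_pos.mpr hw])
  have hs2 : s % 2 = 1 := by
    rcases sq_mod8 s with ⟨-, h⟩ | ⟨h, -⟩
    · omega
    · exact h
  -- first triple
  obtain ⟨m, n', -, h2, h3, hmn, hpar, -⟩ :=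
    PythagoreanTriple.coprime_classification' (x := s) (y := 4 * w) (z := |u|)
      (by unfold PythagoreanTriple; nlinarith [sq_abs u])
      (by
        rw [← Int.isCoprime_iff_gcd_eq_one]
        refine (IsCoprime.pow_left_iff (m := 2) (by norm_num)).mp ?_
        rw [← hs]
        have : IsCoprime (u ^ 2) (4 * w) := by
          refine IsCoprime.mul_right ?_ hcop.pow_left
          simpa using (h2u.pow (m := 2) (n := 2))
        rw [show u ^ 2 - 16 * w ^ 2 = u ^ 2 + -(4 * w) * (4 * w) by ring]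
        exact this.add_mul_right_left _)
      hs2 hupos
  -- second triple
  obtain ⟨k, l, h4, h5, -, hkl, -, -⟩ :=
    PythagoreanTriple.coprime_classification' (x := |u|) (y := 3 * w) (z := |t|)
      (by unfold PythagoreanTriple; nlinarith [sq_abs u, sq_abs t])
      (by
        rw [← Int.isCoprime_iff_gcd_eq_one]
        exact IsCoprime.abs_left (h3u.mul_right hcop))
      (by rcases abs_choice u with h | h <;> rw [h] <;> omega) ht0
  have hw' : 2 * w = m * n' := by linarith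
  have hkl' : 4 * (k * l) = 3 * (m * n') := by linarith
  have hmncop : IsCoprime m n' := Int.isCoprime_iff_gcd_eq_one.mpr hmn
  have hklcop : IsCoprime k l := Int.isCoprime_iff_gcd_eq_one.mpr hkl
  -- normalise so that `4 ∣ M`
  obtain ⟨M, N, hM4, hN2, hMN, hsum, hprod⟩ : ∃ M N : ℤ, (4:ℤ) ∣ M ∧ N % 2 = 1 ∧
      IsCoprime M N ∧ |u| = M ^ 2 + N ^ 2 ∧ 2 * w = M * N := by
    have h4mn : (4:ℤ) ∣ m * n' := by rw [← hw']; omega
    have c2 : ∀ x : ℤ, x % 2 = 1 → IsCoprime (4:ℤ) x := fun x hx => by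
      have : IsCoprime (2:ℤ) x := ⟨-(x / 2), 1, by omega⟩
      simpa using this.pow_left (m := 2)
    rcases hpar with ⟨h, h'⟩ | ⟨h, h'⟩
    · exact ⟨m, n', (c2 n' h').dvd_of_dvd_mul_right h4mn, h', hmncop, h3, hw'⟩
    · exact ⟨n', m, (c2 m h).dvd_of_dvd_mul_left h4mn, h, hmncop.symm, by linarith,
        by linarith⟩
  obtain ⟨M', rfl⟩ := hM4
  have hkl2 : k * l = 3 * (M' * N) := by linarith
  have hk0 : k ≠ 0 := by
    rintro rfl
    simp at hkl2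
    rcases hkl2 with rfl | rfl
    · simp at hprod; exact hw hprod
    · simp at hN2
  have hl0 : l ≠ 0 := by
    rintro rfl
    simp at hkl2
    rcases hkl2 with rfl | rfl
    · simp at hprod; exact hw hprod
    · simp at hN2
  have h3kl : (3:ℤ) ∣ k ∨ (3:ℤ) ∣ l :=
    Int.prime_three.dvd_or_dvd ⟨M' * N, hkl2⟩
  rcases h3kl with ⟨k', rfl⟩ | ⟨l', rfl⟩
  · -- `3 ∣ k` is impossible modulo three
    have hk' : k' * l = M' * N := by linarith
    have hl3 : ¬ (3:ℤ) ∣ l := fun h => by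
      have := hklcop.isUnit_of_dvd' (dvd_mul_right 3 k') h
      norm_num [Int.isUnit_iff] at this
    obtain ⟨a, b, c, d, rfl, rfl, rfl, rfl, hbc⟩ :=
      four_numbers hk' (right_ne_zero_of_mul hk0)
    have hbd : (b * d) % 2 = 1 := hN2
    have hid : a ^ 2 * (9 * b ^ 2 - 16 * c ^ 2) = d ^ 2 * (b ^ 2 + c ^ 2) := by
      have := h4.symm.trans hsum
      linarith [this]
    have had : IsCoprime (d ^ 2) (a ^ 2) :=
      (hklcop.of_mul_left_right.of_mul_left_left.of_mul_right_right.symm).pow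
    obtain ⟨e, he1⟩ : d ^ 2 ∣ 9 * b ^ 2 - 16 * c ^ 2 := had.dvd_of_dvd_mul_left ⟨_, hid⟩
    have hd0 : d ≠ 0 := by rintro rfl; simp at hbd
    have he2 : b ^ 2 + c ^ 2 = a ^ 2 * e := by
      apply mul_left_cancel₀ (pow_ne_zero 2 hd0)
      rw [← hid, he1]; ring
    have he25 : e ∣ 25 := by
      have hX : e ∣ 25 * b ^ 2 := ⟨d ^ 2 + 16 * a ^ 2, by linarith⟩
      have hY : e ∣ 25 * c ^ 2 := ⟨9 * a ^ 2 - d ^ 2, by linarith⟩
      obtain ⟨x, y, hxy⟩ := hbc.pow (m := 2) (n := 2)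
      have : (25:ℤ) = x * (25 * b ^ 2) + y * (25 * c ^ 2) := by
        linear_combination (-25 : ℤ) * hxy
      rw [this]; exact dvd_add (hX.mul_left _) (hY.mul_left _)
    have hl3' : d ^ 2 % 3 = 1 ∧ c ^ 2 % 3 = 1 := by
      refine ⟨?_, ?_⟩
      · rcases sq_mod3 d with ⟨h, -⟩ | ⟨-, h⟩
        · exact absurd (dvd_mul_of_dvd_right (show (3:ℤ) ∣ d by omega) c) hl3
        · exact h
      · rcases sq_mod3 c with ⟨h, -⟩ | ⟨-, h⟩
        · exact absurd (dvd_mul_of_dvd_left (show (3:ℤ) ∣ c by omega) d) hl3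
        · exact h
    have hbd8 : b ^ 2 % 8 = 1 ∧ d ^ 2 % 8 = 1 := by
      refine ⟨?_, ?_⟩
      · rcases sq_mod8 b with ⟨h, -⟩ | ⟨-, h⟩
        · rw [Int.mul_emod, h] at hbd; simp at hbd
        · exact h
      · rcases sq_mod8 d with ⟨h, -⟩ | ⟨-, h⟩
        · rw [Int.mul_emod, h] at hbd; simp at hbd
        · exact h
    have he3 : (d ^ 2 * e) % 3 = e % 3 := by rw [Int.mul_emod, hl3'.1]; simp
    have he8 : (d ^ 2 * e) % 8 = e % 8 := by rw [Int.mul_emod, hbd8.2]; simp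
    have hele : e ≤ 25 := Int.le_of_dvd (by norm_num) he25
    have hepos : 0 < e := by
      by_contra hle
      have h1 : b ^ 2 + c ^ 2 ≤ 0 := by
        rw [he2]; exact mul_nonpos_of_nonneg_of_nonpos (sq_nonneg a) (by omega)
      have := sq_nonneg c
      have := sq_nonneg b
      omega
    interval_cases e <;> omega
  · have hkl3 : k * l' = M' * N := by linarith
    obtain ⟨a, b, c, d, rfl, rfl, rfl, rfl, hbc⟩ := four_numbers hkl3 hk0
    have hbd : (b * d) % 2 = 1 := hN2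
    have hb2 : b % 2 = 1 := by
      rcases sq_mod8 b with ⟨h, -⟩ | ⟨h, -⟩
      · rw [Int.mul_emod, h] at hbd; simp at hbd
      · exact h
    have hd2 : d % 2 = 1 := by
      rcases sq_mod8 d with ⟨h, -⟩ | ⟨h, -⟩
      · rw [Int.mul_emod, h] at hbd; simp at hbd
      · exact h
    have hc0 : c ≠ 0 := by rintro rfl; simp at hl0
    have ha0 : a ≠ 0 := by rintro rfl; simp at hk0
    have hd0 : d ≠ 0 := by rintro rfl; simp at hd2
    have hid : a ^ 2 * (b ^ 2 - 16 * c ^ 2) = d ^ 2 * (b ^ 2 + 9 * c ^ 2) := by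
      have := h4.symm.trans hsum
      linarith [this]
    have had : IsCoprime (d ^ 2) (a ^ 2) :=
      (hklcop.of_mul_left_left.of_mul_right_right.of_mul_right_right.symm).pow
    obtain ⟨e, he1⟩ : d ^ 2 ∣ b ^ 2 - 16 * c ^ 2 :=
      had.dvd_of_dvd_mul_left ⟨_, hid⟩
    have he2 : b ^ 2 + 9 * c ^ 2 = a ^ 2 * e := by
      apply mul_left_cancel₀ (pow_ne_zero 2 hd0)
      rw [← hid, he1]; ring
    have he25 : e ∣ 25 := by
      have hX : e ∣ 25 * b ^ 2 :=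
        ⟨9 * d ^ 2 + 16 * a ^ 2, by linarith⟩
      have hY : e ∣ 25 * c ^ 2 := ⟨a ^ 2 - d ^ 2, by linarith⟩
      obtain ⟨x, y, hxy⟩ := hbc.pow (m := 2) (n := 2)
      have : (25:ℤ) = x * (25 * b ^ 2) + y * (25 * c ^ 2) := by
        calc (25:ℤ) = 25 * (x * b ^ 2 + y * c ^ 2) := by rw [hxy]; ring
          _ = _ := by ring
      rw [this]; exact dvd_add (hX.mul_left _) (hY.mul_left _)
    have hepos : 0 < e := by
      by_contra hle
      have : b ^ 2 + 9 * c ^ 2 ≤ 0 := by rw [he2]; exact mul_nonpos_of_nonneg_of_nonpos (sq_nonneg a) (by omega)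
      nlinarith [sq_nonneg b, mul_self_pos.mpr hc0]
    have he8 : e % 8 = 1 := by
      rcases sq_mod8 b with ⟨h, -⟩ | ⟨-, hb8⟩
      · omega
      rcases sq_mod8 d with ⟨h, -⟩ | ⟨-, hd8⟩
      · omega
      have : (d ^ 2 * e) % 8 = e % 8 := by
        rw [Int.mul_emod, hd8]; simp
      omega
    have hele : e ≤ 25 := Int.le_of_dvd (by norm_num) he25
    obtain ⟨r, hr⟩ : ∃ r : ℤ, e = r ^ 2 := by
      interval_cases e <;> first | exact ⟨1, rfl⟩ | exact ⟨5, rfl⟩ | omega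
    refine ih c.natAbs ?_ b c (r * d) (r * a) rfl hc0 hb2 (by rw [he1, hr]; ring)
      (by rw [he2, hr]; ring)
    have hwabs : w.natAbs = 2 * (a.natAbs * c.natAbs * (b.natAbs * d.natAbs)) := by
      have : w = 2 * (a * c * (b * d)) := by linarith
      rw [this]; simp [Int.natAbs_mul]
    have hb0 : b ≠ 0 := by rintro rfl; simp at hb2
    have h1 := Int.natAbs_pos.mpr hc0
    have h2 : 0 < a.natAbs * (b.natAbs * d.natAbs) := by
      have := Int.natAbs_pos.mpr ha0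
      have := Int.natAbs_pos.mpr hb0
      have := Int.natAbs_pos.mpr hd0
      positivity
    have h3 : c.natAbs ≤ a.natAbs * c.natAbs * (b.natAbs * d.natAbs) :=
      calc c.natAbs ≤ c.natAbs * (a.natAbs * (b.natAbs * d.natAbs)) := Nat.le_mul_of_pos_right _ h2
        _ = _ := by ring
    omega

lemma triple_int (u w s t : ℤ) (hw : w ≠ 0) (hco : IsCoprime u w)
    (hs : u ^ 2 - 16 * w ^ 2 = s ^ 2) (ht : u ^ 2 + 9 * w ^ 2 = t ^ 2) : s = 0 := by
  rcases sq_mod8 u with ⟨hu, hu4⟩ | ⟨hu, -⟩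
  swap
  · exact (core _ u w s t rfl hw hu hs ht).elim
  have hw2 : w ^ 2 % 8 = 1 := by
    rcases sq_mod8 w with ⟨h, -⟩ | ⟨-, h⟩
    · have := hco.isUnit_of_dvd' (show (2:ℤ) ∣ u by omega) (show (2:ℤ) ∣ w by omega)
      norm_num [Int.isUnit_iff] at this
    · exact h
  obtain ⟨u1, rfl⟩ : (2:ℤ) ∣ u := by omega
  have hu1 : u1 % 2 = 0 := by
    rcases sq_mod8 u1 with ⟨h, -⟩ | ⟨-, h⟩
    · exact h
    · have e : 4 * u1 ^ 2 + 9 * w ^ 2 = t ^ 2 := by linarith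
      rcases sq_mod8 t with ⟨-, h'⟩ | ⟨-, h'⟩ <;> omega
  obtain ⟨u2, rfl⟩ : (2:ℤ) ∣ u1 := by omega
  obtain ⟨s2, rfl⟩ : (4:ℤ) ∣ s := by
    rw [← Int.pow_dvd_pow_iff two_ne_zero, ← hs]
    exact ⟨u2 ^ 2 - w ^ 2, by ring⟩
  by_contra hs0
  have hs2 : s2 ≠ 0 := right_ne_zero_of_mul hs0
  refine core _ t s2 (5 * w) (5 * u2) rfl hs2 ?_ (by linarith) (by linarith)
  rcases sq_mod8 t with ⟨-, h⟩ | ⟨h, -⟩
  · have e : 16 * u2 ^ 2 + 9 * w ^ 2 = t ^ 2 := by linarith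
    omega
  · exact h

lemma triple (x : ℚ) (h1 : IsSquare x) (h2 : IsSquare (x - 16)) (h3 : IsSquare (x + 9)) :
    x = 16 := by
  obtain ⟨r, hr⟩ := h1
  obtain ⟨a, ha⟩ := h2
  obtain ⟨b, hb⟩ := h3
  set u := r.num with hu
  set w : ℤ := (r.den : ℤ) with hw
  have hw0 : w ≠ 0 := by simp [hw, r.den_nz]
  have hwq : (w:ℚ) ≠ 0 := by exact_mod_cast hw0
  have hru : r * w = (u:ℚ) := by simp [hu, hw, Rat.mul_den_eq_num]
  have hsa : (a * w) ^ 2 = ((u ^ 2 - 16 * w ^ 2 : ℤ) : ℚ) := by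
    push_cast; rw [← hru]
    linear_combination (-(w:ℚ) ^ 2) * ha + (w:ℚ) ^ 2 * hr
  have hsb : (b * w) ^ 2 = ((u ^ 2 + 9 * w ^ 2 : ℤ) : ℚ) := by
    push_cast; rw [← hru]
    linear_combination (-(w:ℚ) ^ 2) * hb + (w:ℚ) ^ 2 * hr
  obtain ⟨s, hs⟩ := rat_isInt_of_sq hsa
  obtain ⟨t, ht⟩ := rat_isInt_of_sq hsb
  rw [hs] at hsa
  rw [ht] at hsb
  have hco : IsCoprime u w := by
    simpa [hu, hw, Int.isCoprime_iff_gcd_eq_one, Int.gcd] using r.reduced
  have := triple_int u w s t hw0 hco (by exact_mod_cast hsa.symm) (by exact_mod_cast hsb.symm)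
  rw [this] at hs
  push_cast at hs
  have : a = 0 := (mul_eq_zero.mp hs).resolve_right hwq
  rw [this] at ha; linarith

lemma class_five (x y : ℚ) (hy : y ^ 2 = x * (x - 16) * (x + 9)) (h1 : IsSquare x)
    (h2 : IsSquare (5 * (x - 16))) (h3 : IsSquare (5 * (x + 9))) : x = 16 ∨ x = 36 := by
  rcases eq_or_ne x 36 with h | h36
  · exact Or.inr h
  have hx36 : x - 36 ≠ 0 := sub_ne_zero.mpr h36
  rcases eq_or_ne x 0 with rfl | hx0
  · exfalso
    obtain ⟨r, hr⟩ := h2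
    nlinarith [mul_self_nonneg r]
  rcases eq_or_ne x 16 with h | hx16
  · exact Or.inl h
  rcases eq_or_ne x (-9) with rfl | hx9
  · exfalso
    obtain ⟨r, hr⟩ := h1
    nlinarith [mul_self_nonneg r]
  have d16 : x - 16 ≠ 0 := sub_ne_zero.mpr hx16
  have d9 : x + 9 ≠ 0 := by intro h; exact hx9 (by linarith)
  set lam := (y - 180) / (x - 36) with hlam
  set nu := y - lam * x with hnu
  set x' := lam ^ 2 + 7 - x - 36 with hx'
  have e0 : x * 36 * x' = (lam * 0 + nu) ^ 2 := by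
    rw [hx', hnu, hlam]; field_simp
    linear_combination (-(36:ℚ) * (y * 0) + (0:ℚ)) * hy + (36 * x - (36:ℚ) ^ 2) * hy
  have e16 : (x - 16) * (36 - 16) * (x' - 16) = (lam * 16 + nu) ^ 2 := by
    rw [hx', hnu, hlam]; field_simp
    linear_combination (20 * x - (20:ℚ) ^ 2 - 320) * hy
  have e9 : (x + 9) * (36 + 9) * (x' + 9) = (lam * (-9) + nu) ^ 2 := by
    rw [hx', hnu, hlam]; field_simp
    linear_combination (45 * x - (45:ℚ) ^ 2 + 405) * hy
  have q1 : IsSquare x' := by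
    obtain ⟨r, hr⟩ := h1
    have hr0 : r ≠ 0 := by rintro rfl; simp at hr; exact hx0 hr
    refine ⟨(lam * 0 + nu) / (6 * r), ?_⟩
    field_simp
    rw [← e0, hr]; ring
  have q2 : IsSquare (x' - 16) := by
    obtain ⟨r, hr⟩ := h2
    have hr0 : r ≠ 0 := by rintro rfl; simp at hr; exact d16 hr
    refine ⟨(lam * 16 + nu) / (2 * r), ?_⟩
    field_simp
    linear_combination e16 - 4 * (x' - 16) * hr
  have q3 : IsSquare (x' + 9) := by
    obtain ⟨r, hr⟩ := h3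
    have hr0 : r ≠ 0 := by rintro rfl; simp at hr; exact d9 hr
    refine ⟨(lam * (-9) + nu) / (3 * r), ?_⟩
    field_simp
    linear_combination e9 - 9 * (x' + 9) * hr
  have h16 := triple x' q1 q2 q3
  rw [h16] at e16
  have hz : lam * 16 + nu = 0 := by
    have : (lam * 16 + nu) ^ 2 = 0 := by rw [← e16]; ring
    exact eq_zero_of_pow_eq_zero this
  rw [hnu, hlam] at hz
  field_simp at hz
  have hy' : y = 9 * (x - 16) := by linarith
  rw [hy'] at hy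
  have : (x - 16) * (x - 36) ^ 2 = 0 := by linarith
  simp [d16, hx36] at this

lemma extract {a b Y : ℤ} {N : ℕ} (ha : a ≠ 0) (hab : a * b = Y ^ 2)
    (hg : (Int.gcd a b : ℤ) ∣ N) :
    ∃ u : ℤ, ∃ g : ℕ, g ∣ N ∧ u ≠ 0 ∧ (a = g * u ^ 2 ∨ a = -(g * u ^ 2)) := by
  have hpos : 0 < Int.gcd a b := Int.gcd_pos_of_ne_zero_left _ ha
  obtain ⟨a1, b1, hcop, h1, h2⟩ := Int.exists_gcd_one hpos
  set g := Int.gcd a b
  have hg0 : (g:ℤ) ≠ 0 := by exact_mod_cast hpos.ne'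
  obtain ⟨Y1, hY1⟩ : (g:ℤ) ∣ Y := by
    rw [← Int.pow_dvd_pow_iff two_ne_zero, ← hab, h1, h2]
    exact ⟨a1 * b1, by ring⟩
  obtain ⟨u, hu⟩ := Int.sq_of_gcd_eq_one (c := Y1) hcop (by
    apply mul_left_cancel₀ (pow_ne_zero 2 hg0)
    calc (g:ℤ) ^ 2 * (a1 * b1) = a * b := by rw [h1, h2]; ring
      _ = _ := by rw [hab, hY1]; ring)
  refine ⟨u, g, by exact_mod_cast hg, ?_, ?_⟩
  · rintro rfl; rcases hu with h | h <;> simp [h] at h1 <;> exact ha h1
  · rcases hu with h | h <;> [left; right] <;> rw [h1, h] <;> ring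

lemma divisors_144 : ∀ g ∈ Nat.divisors 144, ∃ i < 13, ∃ d ∈ [1, 2, 3, 6], g = i ^ 2 * d := by
  decide

lemma divisors_400 : ∀ g ∈ Nat.divisors 400, ∃ i < 21, ∃ d ∈ [1, 2, 5, 10], g = i ^ 2 * d := by
  decide

lemma divisors_225 : ∀ g ∈ Nat.divisors 225, ∃ i < 16, ∃ d ∈ [1, 3, 5, 15], g = i ^ 2 * d := by
  decide

/-- Local obstructions leave only the classes of the torsion points. -/
lemma local_classes {w u s t σ : ℤ} {d k h : ℕ} (hσ : σ = 1 ∨ σ = -1)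
    (hd : d ∈ [1, 2, 3, 6]) (hk : k ∈ [1, 2, 5, 10]) (hh : h ∈ [1, 3, 5, 15])
    (hsq : IsSquare (d * k * h)) (hco : IsCoprime (σ * d * u ^ 2) w)
    (e2 : σ * d * u ^ 2 - 16 * w ^ 2 = σ * k * s ^ 2)
    (e3 : σ * d * u ^ 2 + 9 * w ^ 2 = h * t ^ 2) :
    d = 1 ∧ ((k = 1 ∧ h = 1) ∨ (k = 5 ∧ h = 5)) := by
  have htab : ∀ d ∈ [1, 2, 3, 6], ∀ k ∈ [1, 2, 5, 10], ∀ h ∈ [1, 3, 5, 15],
      Nat.sqrt (d * k * h) ^ 2 = d * k * h →
      (d = 1 ∧ ((k = 1 ∧ h = 1) ∨ (k = 5 ∧ h = 5))) ∨ (d, k, h) ∈ [(2, 2, 1), (2, 10, 5),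
        (3, 1, 3), (3, 5, 15), (6, 2, 3), (6, 10, 15)] := by decide +kernel
  rcases htab d hd k hk h hh (by
    obtain ⟨r, hr⟩ := hsq
    rw [hr, Nat.sqrt_eq, pow_two]) with hgood | hmem
  · exact hgood
  exfalso
  simp only [List.mem_cons, List.not_mem_nil, or_false, Prod.mk.injEq] at hmem
  have hno : ∀ q : ℤ, q ∣ σ * d * u ^ 2 → q ∣ w → IsUnit q := fun q => hco.isUnit_of_dvd'
  rcases hmem with ⟨rfl, rfl, rfl⟩ | ⟨rfl, rfl, rfl⟩ | ⟨rfl, rfl, rfl⟩ | ⟨rfl, rfl, rfl⟩ |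
    ⟨rfl, rfl, rfl⟩ | ⟨rfl, rfl, rfl⟩
  all_goals push_cast at e2 e3 hno
  iterate 2
    · have hw8 : w ^ 2 % 8 = 1 := by
        rcases sq_mod8 w with ⟨hw, -⟩ | ⟨-, hw⟩
        · have := hno 2 ⟨σ * u ^ 2, by ring⟩ (by omega)
          norm_num [Int.isUnit_iff] at this
        · exact hw
      rcases sq_mod8 u with ⟨hu, -⟩ | ⟨-, hu⟩
      · obtain ⟨u1, rfl⟩ : (2:ℤ) ∣ u := by omega
        ring_nf at e2 e3
        rcases hσ with rfl | rfl <;> rcases sq_mod8 t with ⟨-, ht⟩ | ⟨-, ht⟩ <;>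
          first
          | omega
          | (rcases sq_mod8 s with ⟨hs, hs'⟩ | ⟨-, hs'⟩ <;>
              first
              | omega
              | (obtain ⟨s1, rfl⟩ : (2:ℤ) ∣ s := by omega
                 ring_nf at e2 e3 hs'
                 rcases sq_mod8 u1 with ⟨-, hu1⟩ | ⟨-, hu1⟩ <;>
                   rcases sq_mod8 s1 with ⟨-, hs1⟩ | ⟨-, hs1⟩ <;> omega))
      · ring_nf at e2 e3
        rcases hσ with rfl | rfl <;> rcases sq_mod8 t with ⟨-, ht⟩ | ⟨-, ht⟩ <;> omega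
  all_goals
    have hw3 : w ^ 2 % 3 = 1 := by
      rcases sq_mod3 w with ⟨hw, -⟩ | ⟨-, hw⟩
      · have := hno 3 (by rcases hσ with rfl | rfl <;> omega) (by omega)
        norm_num [Int.isUnit_iff] at this
      · exact hw
    rcases sq_mod3 u with ⟨hu, -⟩ | ⟨-, hu⟩
    · obtain ⟨u1, rfl⟩ : (3:ℤ) ∣ u := by omega
      ring_nf at e2 e3
      rcases hσ with rfl | rfl <;> rcases sq_mod3 t with ⟨ht, -⟩ | ⟨-, ht⟩ <;>
        first
        | omega
        | (obtain ⟨t1, rfl⟩ : (3:ℤ) ∣ t := by omega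
           ring_nf at e3
           omega)
    · ring_nf at e2 e3
      rcases hσ with rfl | rfl <;> rcases sq_mod3 s with ⟨-, hs⟩ | ⟨-, hs⟩ <;>
        rcases sq_mod3 t with ⟨-, ht⟩ | ⟨-, ht⟩ <;> omega

/-- The rational points of `V^2 = X (X - 16) (X + 9)`. -/
theorem rational_points_x015 {X V : ℚ} (h : V ^ 2 = X * (X - 16) * (X + 9)) :
    X = 0 ∨ X = 16 ∨ X = -9 ∨ X = 36 ∨ X = -4 := by
  by_contra hc
  push Not at hc
  obtain ⟨n0, n16, n9, n36, n4⟩ := hc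
  obtain ⟨p, w, Y, hw, hco, hX, -, hY⟩ :=
    cubic_point_num_den (a₂ := -7) (a₄ := -144) (a₆ := 0) (h := X) (y := V)
      (by rw [h]; push_cast; ring)
  have hwq : (w:ℚ) ≠ 0 := by exact_mod_cast hw.ne'
  have hY' : Y ^ 2 = p * (p - 16 * w ^ 2) * (p + 9 * w ^ 2) := by rw [hY]; ring
  have hp0 : p ≠ 0 := by rintro rfl; exact n0 (by simpa using hX)
  have hq0 : p - 16 * w ^ 2 ≠ 0 := fun h0 => n16 (by
    rw [hX, show p = 16 * w ^ 2 by linarith]; push_cast; field_simp)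
  have hr0 : p + 9 * w ^ 2 ≠ 0 := fun h0 => n9 (by
    rw [hX, show p = -(9 * w ^ 2) by linarith]; push_cast; field_simp)
  have hgw : ∀ g N : ℤ, g ∣ p → g ∣ N * w ^ 2 → g ∣ N := fun g N h1 h2 =>
    ((hco.of_isCoprime_of_dvd_left h1).pow_right).dvd_of_dvd_mul_right h2
  have hgcd : ∀ a b c : ℤ, (Int.gcd a (b * c) : ℤ) ∣ (Int.gcd a b : ℤ) * Int.gcd a c := by
    intro a b c
    have := Nat.gcd_mul_right_dvd_mul_gcd a.natAbs b.natAbs c.natAbs
    rw [← Int.natAbs_mul] at this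
    exact_mod_cast this
  have g12 : (Int.gcd p (p - 16 * w ^ 2) : ℤ) ∣ 16 :=
    hgw _ _ (Int.gcd_dvd_left _ _) (by
      have := dvd_sub (Int.gcd_dvd_left p (p - 16 * w ^ 2)) (Int.gcd_dvd_right p (p - 16 * w ^ 2))
      simpa using this)
  have g13 : (Int.gcd p (p + 9 * w ^ 2) : ℤ) ∣ 9 :=
    hgw _ _ (Int.gcd_dvd_left _ _) (by
      have := dvd_sub (Int.gcd_dvd_right p (p + 9 * w ^ 2)) (Int.gcd_dvd_left p (p + 9 * w ^ 2))
      simpa using this)
  have g23 : (Int.gcd (p - 16 * w ^ 2) (p + 9 * w ^ 2) : ℤ) ∣ 25 := by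
    obtain ⟨x, y, hxy⟩ := hco.pow (m := 1) (n := 2)
    rw [pow_one] at hxy
    have h1 := Int.gcd_dvd_left (p - 16 * w ^ 2) (p + 9 * w ^ 2)
    have h2 := Int.gcd_dvd_right (p - 16 * w ^ 2) (p + 9 * w ^ 2)
    have : (25:ℤ) = (9 * x - y) * (p - 16 * w ^ 2) + (16 * x + y) * (p + 9 * w ^ 2) := by
      linear_combination (-25 : ℤ) * hxy
    rw [this]
    exact dvd_add (h1.mul_left _) (h2.mul_left _)
  obtain ⟨u0, g1, hg1, hu0, hp⟩ := extract (N := 144) (a := p)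
    (b := (p - 16 * w ^ 2) * (p + 9 * w ^ 2)) (Y := Y) hp0 (by rw [hY']; ring)
    ((hgcd _ _ _).trans (by simpa using mul_dvd_mul g12 g13))
  obtain ⟨s0, g2, hg2, hs0, hq⟩ := extract (N := 400) (a := p - 16 * w ^ 2)
    (b := p * (p + 9 * w ^ 2)) (Y := Y) hq0 (by rw [hY']; ring)
    ((hgcd _ _ _).trans (by
      rw [Int.gcd_comm (p - 16 * w ^ 2) p]
      simpa using mul_dvd_mul g12 g23))
  obtain ⟨t0, g3, hg3, ht0, hr⟩ := extract (N := 225) (a := p + 9 * w ^ 2)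
    (b := p * (p - 16 * w ^ 2)) (Y := Y) hr0 (by rw [hY']; ring)
    ((hgcd _ _ _).trans (by
      rw [Int.gcd_comm (p + 9 * w ^ 2) p, Int.gcd_comm (p + 9 * w ^ 2) (p - 16 * w ^ 2)]
      simpa using mul_dvd_mul g13 g23))
  obtain ⟨i, -, d, hd, rfl⟩ := divisors_144 g1 (Nat.mem_divisors.mpr ⟨hg1, by norm_num⟩)
  obtain ⟨j, -, k, hk, rfl⟩ := divisors_400 g2 (Nat.mem_divisors.mpr ⟨hg2, by norm_num⟩)
  obtain ⟨l, -, e, he, rfl⟩ := divisors_225 g3 (Nat.mem_divisors.mpr ⟨hg3, by norm_num⟩)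
  push_cast at hp hq hr
  set u := (i:ℤ) * u0 with hu
  set s := (j:ℤ) * s0 with hs
  set t := (l:ℤ) * t0 with ht
  have hp' : p = d * u ^ 2 ∨ p = -(d * u ^ 2) := by
    rcases hp with hp | hp <;> [left; right] <;> rw [hp, hu] <;> ring
  have hq' : p - 16 * w ^ 2 = k * s ^ 2 ∨ p - 16 * w ^ 2 = -(k * s ^ 2) := by
    rcases hq with hq | hq <;> [left; right] <;> rw [hq, hs] <;> ring
  have hr' : p + 9 * w ^ 2 = e * t ^ 2 ∨ p + 9 * w ^ 2 = -(e * t ^ 2) := by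
    rcases hr with hr | hr <;> [left; right] <;> rw [hr, ht] <;> ring
  have hYsq : (0:ℤ) < p * (p - 16 * w ^ 2) * (p + 9 * w ^ 2) := by
    rcases (sq_nonneg Y).lt_or_eq with h0 | h0
    · rw [← hY']; exact h0
    · rw [hY'] at h0
      simp [hp0, hq0, hr0] at h0
  have hw2 : (0:ℤ) < w ^ 2 := by positivity
  have hrpos : 0 < p + 9 * w ^ 2 := by
    by_contra hle
    nlinarith [mul_pos (show (0:ℤ) < -p by linarith) (show (0:ℤ) < -(p - 16 * w ^ 2) by linarith)]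
  have hpq : 0 < p * (p - 16 * w ^ 2) := by
    by_contra hle
    nlinarith
  have hr'' : p + 9 * w ^ 2 = e * t ^ 2 := by
    rcases hr' with h' | h'
    · exact h'
    · nlinarith [sq_nonneg t, (Nat.cast_nonneg e : (0:ℤ) ≤ e)]
  obtain ⟨σ, hσ, hpσ, hqσ⟩ : ∃ σ : ℤ, (σ = 1 ∨ σ = -1) ∧ p = σ * d * u ^ 2 ∧
      p - 16 * w ^ 2 = σ * k * s ^ 2 := by
    have hdu : (0:ℤ) ≤ d * u ^ 2 := by positivity
    have hks : (0:ℤ) ≤ k * s ^ 2 := by positivity
    rcases hp' with h1 | h1 <;> rcases hq' with h2 | h2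
    · exact ⟨1, Or.inl rfl, by rw [h1]; ring, by rw [h2]; ring⟩
    · rw [h2, h1] at hpq; nlinarith [mul_nonneg hdu hks]
    · rw [h2, h1] at hpq; nlinarith [mul_nonneg hdu hks]
    · exact ⟨-1, Or.inr rfl, by rw [h1]; ring, by rw [h2]; ring⟩
  have hσ2 : σ * σ = 1 := by rcases hσ with rfl | rfl <;> rfl
  have hsq : IsSquare (d * k * e) := by
    have hY2 : Y ^ 2 = ((d * k * e : ℕ) : ℤ) * (u * s * t) ^ 2 := by
      rw [hY', hqσ, hr'', hpσ]; push_cast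
      linear_combination ((d:ℤ) * k * e * (u * s * t) ^ 2) * hσ2
    have hn := congrArg Int.natAbs hY2
    simp only [Int.natAbs_pow, Int.natAbs_mul, Int.natAbs_natCast] at hn
    set m := u.natAbs * s.natAbs * t.natAbs
    have hust : u * s * t ≠ 0 := fun h0 => by
      rw [h0] at hY2; simp at hY2
      rw [hY2] at hY'; simp at hY'; simp [hp0, hq0, hr0] at hY'
    have hm : 0 < m := by
      simpa [Int.natAbs_mul, m] using Int.natAbs_pos.mpr hust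
    obtain ⟨c, hc⟩ : m ∣ Y.natAbs := by
      rw [← Nat.pow_dvd_pow_iff two_ne_zero, hn]; exact dvd_mul_left _ _
    refine ⟨c, Nat.eq_of_mul_eq_mul_right (pow_pos hm 2) ?_⟩
    rw [← hn, hc]; ring
  obtain ⟨rfl, hkh⟩ := local_classes hσ hd hk he hsq (hpσ ▸ hco) (hpσ ▸ hqσ) (hpσ ▸ hr'')
  -- now move to the class of a square abscissa
  have hXσ : σ * X = ((u:ℚ) / w) ^ 2 := by
    rw [hX, hpσ]; push_cast
    rcases hσ with rfl | rfl <;> push_cast <;> field_simp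
  have hX16 : σ * (X - 16) = (k:ℚ) * ((s:ℚ) / w) ^ 2 := by
    have := congrArg (fun z : ℤ => (z:ℚ)) hqσ
    push_cast at this
    rw [hX]
    rcases hσ with rfl | rfl <;> push_cast at this ⊢ <;> field_simp <;> linarith
  have hX9 : X + 9 = (e:ℚ) * ((t:ℚ) / w) ^ 2 := by
    have := congrArg (fun z : ℤ => (z:ℚ)) hr''
    push_cast at this
    rw [hX]
    field_simp
    linarith
  have hk5 : (k:ℚ) = e ∧ (k = 1 ∨ k = 5) := by
    rcases hkh with ⟨rfl, rfl⟩ | ⟨rfl, rfl⟩ <;> simp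
  -- the point to which the translated descent applies
  obtain ⟨x, y, hxy, q1, q2, q3, hback⟩ : ∃ x y : ℚ, y ^ 2 = x * (x - 16) * (x + 9) ∧
      IsSquare x ∧ IsSquare ((e:ℚ) * (x - 16)) ∧ IsSquare ((e:ℚ) * (x + 9)) ∧
      (x = 16 → X = 16 ∨ X = -9) ∧ (x = 36 → X = 36 ∨ X = -4) := by
    rcases hσ with rfl | rfl
    · push_cast at hXσ hX16
      rw [one_mul] at hXσ hX16
      refine ⟨X, V, h, ⟨(u:ℚ) / w, by rw [hXσ]; ring⟩, ⟨(e:ℚ) * s / w, ?_⟩,
        ⟨(e:ℚ) * t / w, ?_⟩, Or.inl, Or.inl⟩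
      · rw [hX16, hk5.1]; ring
      · rw [hX9]; ring
    · push_cast at hXσ hX16
      have hu0' : (u:ℚ) ≠ 0 := by
        intro h0; rw [h0] at hXσ; simp at hXσ; exact n0 hXσ
      refine ⟨-144 / X, 144 * V / X ^ 2, ?_, ⟨12 * w / u, ?_⟩, ⟨4 * (e:ℚ) * t / u, ?_⟩,
        ⟨3 * (e:ℚ) * s / u, ?_⟩, ?_, ?_⟩
      · rw [div_pow, mul_pow, h]; field_simp; ring
      · rw [show X = -((u:ℚ) / w) ^ 2 by linarith]; field_simp; ring
      · rw [show (-144 / X - 16) = -16 * (X + 9) / X by field_simp; ring, hX9,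
          show X = -((u:ℚ) / w) ^ 2 by linarith]
        field_simp
        ring
      · rw [show (-144 / X + 9) = -9 * -(X - 16) / -(-X) * (-1) * (-1) by field_simp; ring,
          show -(X - 16) = (e:ℚ) * ((s:ℚ) / w) ^ 2 by rw [← hk5.1]; linarith,
          show X = -((u:ℚ) / w) ^ 2 by linarith]
        field_simp
        ring
      · intro h'; right; field_simp at h'; linarith
      · intro h'; right; field_simp at h'; linarith
  rcases hkh with ⟨rfl, rfl⟩ | ⟨rfl, rfl⟩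
  · push_cast at q2 q3
    rw [one_mul] at q2 q3
    exact (hback.1 (triple x q1 q2 q3)).elim n16 n9
  · push_cast at q2 q3
    rcases class_five x y hxy q1 q2 q3 with h' | h'
    · exact (hback.1 h').elim n16 n9
    · exact (hback.2 h').elim n36 n4

end Fermat.Agent.Descent.X015
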